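import Fermat.Agent.BAD.AtP.Gal.Fixed
import Fermat.Agent.BAD.TwoP.Descent

/-!
# Eigenclasses at level `L p`

The vocabulary that connects the Galois side and the geometric side of Mazur's principle at the
residue characteristic.
-/

set_option autoImplicit false

noncomputable section

open CongruenceSubgroup ModularFormClass
open scoped Matrix MatrixGroups

namespace FermatAgent.BAD.TwoP

open FermatAgent.ES (GQ embC)
open CFT.Local (Gal')

/-- `g` is induced by an automorphism fixing the coefficient field. -/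
def FixCond (p : ℕ) [Fact p.Prime] (Φ : ℂ ≃+* PadicAlgCl p) (g : GQ) : Prop :=
  ∃ s : Gal' p, (∀ x, s (Φ (embC x)) = Φ (embC (g x))) ∧ FixK Φ 2 s

end FermatAgent.BAD.TwoP

namespace FermatAgent.BAD.AtP

open FermatAgent.PSEMI FermatAgent.BAD.TwoP
open FermatAgent.ES (GQ embC)
open FermatAgent.Period (parRank)
open CFT.Local (Gal')

local notation "ZC" => integralClosure ℤ ℂ

variable (p : ℕ) [hp : Fact p.Prime] (N : ℕ) [NeZero N]

/-- The matrix of the Hecke operator at a prime. -/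
def matT (ℓ : ℕ) (hℓ : ℓ.Prime) :
    Matrix (Fin (parRank (Gamma0 N))) (Fin (parRank (Gamma0 N))) ℤ_[p] :=
  ES.heckePadMat p ⟨_, MF.heckeAt_mem hℓ (Set.notMem_empty ℓ)⟩

/-- The residual system `b` does not occur at level `L` away from the primes dividing `E`. -/
def NoLow (L E : ℕ) (b : ℕ → ℕ) : Prop :=
  ¬ ∃ (g : CuspForm (Gamma0 L) 2) (𝔪 : Ideal ZC),
    g.IsNormalizedEigenform ∧ 𝔪.IsMaximal ∧ (p : ZC) ∈ 𝔪 ∧
    ∀ ℓ : ℕ, ℓ.Prime → ¬ ℓ ∣ E * (L * p) →
      ∃ x : ZC, (x : ℂ) = qCoeff g ℓ ∧ x - (b ℓ : ZC) ∈ 𝔪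

end FermatAgent.BAD.AtP
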